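-- Statement S44: `FreyPackage.level_lowering_at_p_of_conductorLevel`;
-- `result` has the frozen type of `Fermat/Statements/S44.lean`.
import Fermat.Statements.S44
import Fermat.Agent.RT.MazurP.Lower
import Fermat.Agent.OrdinaryAtP.Connected

set_option autoImplicit false
open WeierstrassCurve WeierstrassCurve.Affine WeierstrassCurve.Affine.Point
open CuspForm ModularFormClass UpperHalfPlane
open FreyPackage

namespace Fermat.Agent.S44

theorem result (P : FreyPackage) {N : ℕ} (hcond : P.IsConductorLevel N) (hpN : P.p ∣ N) (hirr : GaloisRepIsIrreducible (K := AlgebraicClosure ℚ) ℚ P.freyCurve P.p) (hmod : P.ModularRepOfLevel N) : ∃ M : ℕ, M ∣ N ∧ ¬ P.p ∣ M ∧ P.ModularRepOfLevel M := by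
  exact Fermat.Agent.RT.MazurP.lower_of_noFlatQuotient P hcond hpN hirr hmod
    fun A hA M _ hpM h4 H hflat hstab π hinv => Fermat.Agent.OrdinaryAtP.eq_zero_of_invariant_of_flat (hpM := hpM) hA (le_trans (by norm_num) P.hp5) h4 H hflat hstab π hinv

end Fermat.Agent.S44
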