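import Fermat.Statements.S13
import Fermat.Agent.EC.AtP.FreyTwoAdic

set_option autoImplicit false
open WeierstrassCurve WeierstrassCurve.Affine WeierstrassCurve.Affine.Point
open CuspForm ModularFormClass UpperHalfPlane
open FreyPackage

namespace Fermat.Agent.S13

theorem result (P : FreyPackage) (hred : ¬ GaloisRepIsIrreducible (K := AlgebraicClosure ℚ) ℚ P.freyCurve P.p) : HasGaloisStableCofixedLine (K := AlgebraicClosure ℚ) ℚ P.freyCurve P.p := by
  rw [Fermat.Agent.EC.Reduction.Frey.freyCurve_eq_map] at hred ⊢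
  have hp5 := P.hp5
  exact Fermat.Agent.EC.AtP.hasGaloisStableCofixedLine_of_reducible P.pp (by omega)
    (fun h => by
      by_cases hd : (P.p : ℤ) ∣ P.a * P.b * P.c
      · exact Fermat.Agent.EC.Reduction.Frey.not_dvd_c₄ P P.pp hd h.1
      · exact Fermat.Agent.EC.Reduction.Frey.not_dvd_Δ P P.pp hd h.2)
    (Fermat.Agent.EC.AtP.frey_inertiaPreservesComponent P)
    (Fermat.Agent.EC.AtP.e1TorsionFree P.p P.pp)
    (Fermat.Agent.EC.AtP.frey_no_rational_torsion P) hred

end Fermat.Agent.S13
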