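-- Statement S07: `ModularForm.S2_Gamma0_2_eq_zero`;
-- `result` has the frozen type of `Fermat/Statements/S07.lean`.
import Fermat.Statements.S07
import Fermat.Prelude.Thm_ModularForm_sturm_bound_Gamma0
import Fermat.Agent.Patching.SmallLevel

set_option autoImplicit false
open WeierstrassCurve WeierstrassCurve.Affine WeierstrassCurve.Affine.Point
open CuspForm ModularFormClass UpperHalfPlane
open ModularForm

namespace Fermat.Agent.S07

theorem result (f : CuspForm (CongruenceSubgroup.Gamma0 2) 2) : f = 0 := by
  exact Fermat.Agent.Patching.cuspForm_weight_two_eq_zero 2 (by norm_num) f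

end Fermat.Agent.S07
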