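-- Statement S03: `FreyPackage.no_frey_package`;
-- `result` has the frozen type of `Fermat/Statements/S03.lean`.
import Fermat.Statements.S03
import Fermat.Agent.Two.Composition
import Fermat.Agent.Two.Final

set_option autoImplicit false
open FreyPackage

namespace Fermat.Agent.S03

theorem result (P : FreyPackage) : False := by
  exact Fermat.Agent.Two.false_of_inputs Fermat.Agent.Two.liftingInput Fermat.Agent.Two.Switch.switchInput
    Fermat.Agent.Two.Data.familyInput (Fermat.Agent.Two.congruenceInput_of_psi Fermat.Agent.Two.psiInput)
    Fermat.Agent.Two.Lower.loweringInput P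

end Fermat.Agent.S03
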