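-- Statement S09: `FreyPackage.Mazur_Frey`;
-- `result` has the frozen type of `Fermat/Statements/S09.lean`.
import Fermat.Statements.S09
import Fermat.Agent.Mazur.Eisenstein.Final

set_option autoImplicit false
open WeierstrassCurve WeierstrassCurve.Affine WeierstrassCurve.Affine.Point
open CuspForm ModularFormClass UpperHalfPlane
open FreyPackage

namespace Fermat.Agent.S09

theorem result (P : FreyPackage) : GaloisRepIsIrreducible (K := AlgebraicClosure ℚ) ℚ P.freyCurve P.p :=
  Mazur.Large.galoisRepIsIrreducible_frey Mazur.Eisenstein.threePlaceLemma_holds P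

end Fermat.Agent.S09
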