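-- Statement S12: `FreyPackage.frey_no_cofixed_large`;
-- `result` has the frozen type of `Fermat/Statements/S12.lean`.
import Fermat.Statements.S12
import Fermat.Agent.Mazur.Eisenstein.Final

set_option autoImplicit false
open WeierstrassCurve WeierstrassCurve.Affine WeierstrassCurve.Affine.Point
open CuspForm ModularFormClass UpperHalfPlane
open FreyPackage

namespace Fermat.Agent.S12

theorem result (P : FreyPackage) (hp : 17 ≤ P.p) : ¬ HasGaloisStableCofixedLine (K := AlgebraicClosure ℚ) ℚ P.freyCurve P.p :=
  Mazur.Large.not_hasGaloisStableCofixedLine Mazur.Eisenstein.threePlaceLemma_holds P hp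

end Fermat.Agent.S12
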