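-- Statement S16:
-- `ModularCurve.natCard_heckeLatticeAlgebra_quotient_eisensteinIdeal_eq_eisensteinNumerator`;
-- `result` has the frozen type of `Fermat/Statements/S16.lean`.
import Fermat.Statements.S16
import Fermat.Agent.HeckeDuality.EisensteinIndex

set_option autoImplicit false
open ModularCurve CuspForm
open ModularCurve

namespace Fermat.Agent.S16

theorem result
    (p : ℕ) [Fact p.Prime] :
    Nat.card (↥(heckeLatticeAlgebra p ∅) ⧸
        Ideal.map ((latticeRestrictHom p ∅).toRingHom.comp (heckeEvalForms p 2))
          (eisensteinIdeal p)) =
      eisensteinNumerator p := by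
  exact Fermat.Agent.HeckeDuality.natCard_eisenstein_quotient p

end Fermat.Agent.S16
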