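-- Statement S17: `ModularCurve.JZero.addGroup_fg_invariants_rat_of_prime_of_five_le`;
-- `result` has the frozen type of `Fermat/Statements/S17.lean`.
import Fermat.Statements.S17
import Fermat.Agent.MordellWeil.Main

set_option autoImplicit false
open ModularCurve AlgebraicCurve
open ModularCurve ModularCurve.JZero

namespace Fermat.Agent.S17

theorem result (N : ℕ) [NeZero N] (hN : N.Prime) (hN5 : 5 ≤ N) :
    AddGroup.FG ↥(FixedPoints.addSubgroup ((AlgebraicClosure ℚ) ≃ₐ[ℚ] (AlgebraicClosure ℚ)) (JZero N)) := by
  have := Fact.mk hN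
  exact MordellWeil.jZero_fg N

end Fermat.Agent.S17
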