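-- Statement S18: `ModularCurve.eq_zero_of_reductionModL_eq_zero_of_nsmul_eq_zero`;
-- `result` has the frozen type of `Fermat/Statements/S18.lean`.
import Fermat.Statements.S18
import Fermat.Agent.RedTorsion.Inj
import Fermat.Agent.FiniteFlat.Instance
import Fermat.Agent.EichlerShimura.Specialization

set_option autoImplicit false
set_option synthInstance.maxHeartbeats 400000
set_option maxHeartbeats 1000000
open ModularCurve AlgebraicCurve IsLocalRing
open Fermat.Agent.Arith Fermat.Agent.FF Fermat.Agent.FiniteFlat Fermat.Agent.RedTorsion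
open Fermat.Agent.EichlerShimura

namespace Fermat.Agent.S18

theorem result (N : ℕ) [NeZero N] {ℓ : ℕ}
    [Fact ℓ.Prime] (hℓN : ¬ ℓ ∣ N) (A : ValuationSubring (AlgebraicClosure ℚ)) (hA : A.LiesOverPrime ℓ)
    (h : ModularCurve.ReductionInputsModL A N) (m : ℕ) (hm : ¬ ℓ ∣ m) (z : ModularCurve.JZero N)
    (hmz : m • z = 0) (hz : ModularCurve.reductionModL A N z = 0) :
    z = 0 := by
  have hℓ : ℓ.Prime := Fact.out
  have : IsAlgClosed (ResidueField A) := Fermat.Agent.Arith.residueField_isAlgClosed A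
  have hNA : (N : ResidueField A) ≠ 0 := natCast_ne_zero hℓ hℓN hA
  have hmA : IsUnit (m : A) := by
    refine (residue_ne_zero_iff_isUnit _).mp ?_
    rw [map_natCast]
    have := Fermat.Agent.Arith.residueField_charP hA hℓ
    rwa [Ne, CharP.cast_eq_zero_iff (ResidueField A) ℓ]
  have hm0 : m ≠ 0 := fun e => hm (e ▸ dvd_zero ℓ)
  have : IsFunctionField QBar (modularFunctionFieldBar N) := isFunctionField_bar
  have : IsFunctionField (ResidueField A) (modularFunctionFieldFullC (ResidueField A) N) :=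
    isFunctionField_full (F := modularFunctionFieldFullC (ResidueField A) N) rfl hNA
  obtain ⟨D, rfl⟩ := Pic0.mk_surjective z
  have hzero : ((m : ℤ) • Pic0.mk D) = 0 := by rw [natCast_zsmul, hmz]
  rw [reductionModL_mk_of_torsion (seriesCompat hNA) h.choose_spec.2 D hm0 hzero] at hz
  obtain ⟨x, hx, hxD⟩ := AddSubgroup.mem_addSubgroupOf.mp ((QuotientAddGroup.eq_zero_iff _).mp hz)
  have hmD : ((m • D : Divisor.degZero (K := QBar) (F := modularFunctionFieldBar N))).1 ∈
      Divisor.principal (K := QBar) (F := modularFunctionFieldBar N) :=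
    AddSubgroup.mem_addSubgroupOf.mp ((QuotientAddGroup.eq_zero_iff (m • D)).mp hmz)
  obtain ⟨f, hf, hfD⟩ := hmD
  obtain ⟨y, hy, hyD⟩ := RedTorsion.Inj.exists_div_eq (goodRed hNA) hA hℓ hmA
    (D := D.1) hf (Finsupp.ext fun v => (hfD v).symm) hx (Finsupp.ext fun v => hxD v)
  exact (QuotientAddGroup.eq_zero_iff _).mpr (AddSubgroup.mem_addSubgroupOf.mpr
    ⟨y, hy, fun v => by rw [← hyD]; rfl⟩)

end Fermat.Agent.S18
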