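import Fermat.Statements.S19
import Fermat.Agent.FiniteFlat.JTorsion
import Fermat.Agent.FiniteFlat.GalOrderHopf

set_option autoImplicit false
open ModularCurve
open ModularCurve

namespace Fermat.Agent.S19

theorem result
    (p : ℕ) [NeZero p] (ℓ : ℕ) [Fact ℓ.Prime] (hℓp : ¬ ℓ ∣ p) (k : ℕ) :
    ∃ (H : Type) (_ : CommRing H) (_ : HopfAlgebra (GaloisRep.ratLocalizedAt ℓ) H),
      Module.Finite (GaloisRep.ratLocalizedAt ℓ) H ∧ Module.Flat (GaloisRep.ratLocalizedAt ℓ) H ∧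
      Coalgebra.IsCocomm (GaloisRep.ratLocalizedAt ℓ) H ∧
      ∃ e : WithConv (H →ₐ[GaloisRep.ratLocalizedAt ℓ] AlgebraicClosure ℚ) ≃
          ↥(Submodule.torsionBy ℤ (JZero p) ((ℓ : ℤ) ^ k)),
        (∀ f g, e (f * g) = e f + e g) ∧
        ∀ (σ : AlgebraicClosure ℚ ≃ₐ[ℚ] AlgebraicClosure ℚ)
          (f g : WithConv (H →ₐ[GaloisRep.ratLocalizedAt ℓ] AlgebraicClosure ℚ)),
          (∀ h : H, g h = σ (f h)) → ((e g : JZero p)) = σ • (e f : JZero p) := by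
  have hl : ℓ.Prime := Fact.out
  obtain ⟨A, hA⟩ := Fermat.Agent.Arith.exists_liesOverPrime hl
  obtain ⟨O, -⟩ := Fermat.Agent.FiniteFlat.exists_galOrder_jTor (N := p) (k := k) hA hl hℓp
  have := Fermat.Agent.FiniteFlat.finite_jTor p ℓ k hl
  obtain ⟨H, hC, hH, hfin, hflat, hcoc, e, hadd, hgal⟩ := O.exists_hopfAlgebra
  have hcast : ((ℓ ^ k : ℕ) : ℤ) = (ℓ : ℤ) ^ k := by push_cast; rfl
  let ψ : Fermat.Agent.FiniteFlat.JTor p ℓ k ≃ ↥(Submodule.torsionBy ℤ (JZero p) ((ℓ : ℤ) ^ k)) :=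
    { toFun := fun x => ⟨Fermat.Agent.FiniteFlat.jTorIncl p ℓ k x, by
        rw [Submodule.mem_torsionBy_iff, ← hcast]
        exact Fermat.Agent.FiniteFlat.jTorIncl_torsion p ℓ k x⟩
      invFun := fun y => ⟨(y : JZero p), AlgebraicCurve.Pic0.mem_torsion.mpr (by
        rw [hcast]; exact (Submodule.mem_torsionBy_iff _ _).mp y.2)⟩
      left_inv := fun x => rfl
      right_inv := fun y => rfl }
  refine ⟨H, hC, hH, hfin, hflat, hcoc, e.trans ψ, fun f g => ?_, fun σ f g hfg => ?_⟩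
  · refine Subtype.ext ?_
    exact (congrArg (Fermat.Agent.FiniteFlat.jTorIncl p ℓ k) (hadd f g)).trans (map_add _ _ _)
  · exact (congrArg (Fermat.Agent.FiniteFlat.jTorIncl p ℓ k) (hgal σ f g hfg)).trans rfl

end Fermat.Agent.S19
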