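-- Statement S25:
-- `AlgebraicGeometry.RelPicard.exists_representsRelSubPic_algEquivZeroCut_of_isAlgClosed`;
-- `result` has the frozen type of `Fermat/Statements/S25.lean`.
import Fermat.Statements.S25
import Fermat.Agent.RelPic.Assembly
import Fermat.Agent.RelPic.Point.HasTwist
import Fermat.Agent.RelPic.Curve.Regular
import Fermat.Agent.RelPic.Curve.Model
import Fermat.Agent.RelPic.Chart.Open
import Fermat.Agent.RelPic.Functor.UnitDeg
import Fermat.Agent.RelPic.Point.Coverage
import Fermat.Agent.RelPic.Props.Lift
import Fermat.Agent.RelPic.Dict.Props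
import Fermat.Agent.RelPic.Cut.Chains
import Fermat.Agent.RelPic.Props.Valuative
import Fermat.Agent.RelPic.Cut.ShiftInstance

set_option autoImplicit false
set_option autoImplicit false
universe u
open CategoryTheory CategoryTheory.Limits AlgebraicGeometry AlgebraicGeometry.RelPicard NeronModelInfra
  GoodReductionJacobian
open AlgebraicGeometry AlgebraicGeometry.RelPicard

namespace Fermat.Agent.S25

theorem result
    (k : Type u) [Field k] [IsAlgClosed k] {C : Scheme.{u}} (c : C ⟶ Spec (CommRingCat.of k))
    [IsProper c] [SmoothOfRelativeDimension 1 c] [IsIntegral C]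
    (ε : SchemeHomOver (𝟙 (Spec (CommRingCat.of k))) c) :
    ∃ D : RelativePic0Designation k c,
      Nonempty (RepresentsRelSubPic c ε (algEquivZeroCut c ε) D) ∧
        Smooth D.toBase ∧ IsProper D.toBase ∧ GeometricallyConnected D.toBase := by
  obtain ⟨G⟩ := RelPic.Curve.exists_geomModel c ε
  have hC : G.model.Regular := RelPic.Curve.regular_geomModel G
  have : GeometricallyIntegral c := RelPic.Curve.geometricallyIntegral G
  exact RelPic.exists_jacobian_of_inputs G hC (RelPic.dictProps G) (fun i => i.hasTwist hC)
    (fun i => i.isOpenCondition hC G.e) (G.model.hasCoverage G.e)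
    (G.model.hasLifting G.e) (G.model.hasValuativeUniqueness hC G.e) (RelPic.unitDegZero G) (RelPic.shiftData G hC)
    (RelPic.hasChains (RelPic.dictProps G) hC)

end Fermat.Agent.S25
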