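-- Statement S32: `CuspForm.HeckeGaloisRepDatum.isFlatAt_of_primeFactors_subset`;
-- `result` has the frozen type of `Fermat/Statements/S32.lean`.
import Fermat.Statements.S32
import Fermat.Agent.FiniteFlat.JTorsion
import Fermat.Agent.GaloisReps.Flat
import Fermat.Agent.GaloisReps.OfInjective
import Fermat.Agent.EichlerShimura.InjectiveProof

set_option autoImplicit false
variable {p : ℕ} {N : ℕ} [NeZero N] {S : Finset ℕ}
  {𝒪 : Type} [CommRing 𝒪] [IsDomain 𝒪] [IsDiscreteValuationRing 𝒪]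
  [IsAdicComplete (IsLocalRing.maximalIdeal 𝒪) 𝒪]
  {θ : CuspForm.heckeAlgebra N 2 (↑S : Set ℕ) →+* IsLocalRing.ResidueField 𝒪}
  {T : Type} [CommRing T] [IsLocalRing T] [IsNoetherianRing T]
  [IsAdicComplete (IsLocalRing.maximalIdeal T) T] [Algebra 𝒪 T] [IsLocalHom (algebraMap 𝒪 T)]
  [Module.Finite 𝒪 T] [Module.Free 𝒪 T]
open CuspForm CuspForm.HeckeGaloisRepDatum

namespace Fermat.Agent.S32

theorem result
    [Finite (IsLocalRing.ResidueField 𝒪)] [CharZero 𝒪]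
    (hp : p.Prime) (hp2 : p ≠ 2) (hp𝒪 : (p : 𝒪) ∈ IsLocalRing.maximalIdeal 𝒪) (hpN : ¬ p ∣ N)
    (hpS : p ∈ S) (hNS : ∀ q : ℕ, q.Prime → q ∣ N → q ∈ S)
    (H : CuspForm.HeckeGaloisRepDatum N (↑S : Set ℕ) 𝒪 θ T) :
    H.ρ.IsFlatAt p := by
  have := Fact.mk hp
  refine GaloisReps.isFlatAt_of_congruence (GaloisReps.congruenceProperty_all
    Fermat.Agent.EichlerShimura.injectiveOnTorsion_all N p) hp𝒪 H fun M => ?_
  obtain ⟨A, hA⟩ := Fermat.Agent.Arith.exists_liesOverPrime hp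
  obtain ⟨O, -⟩ := Fermat.Agent.FiniteFlat.exists_galOrder_jTor (N := N) (k := M) hA hp hpN
  exact ⟨Fermat.Agent.FiniteFlat.JTor N p M, inferInstance, inferInstance,
    { toFun := fun x => x, map_zero' := rfl, map_add' := fun _ _ => rfl },
    fun x y h => h, fun σ x => rfl, ⟨O⟩⟩

end Fermat.Agent.S32
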