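-- Statement S33: `CuspForm.HeckeGaloisRepDatum.isOrdinaryAt_of_primeFactors_subset`;
-- `result` has the frozen type of `Fermat/Statements/S33.lean`.
import Fermat.Statements.S33
import Fermat.Agent.OrdinaryAtP.Reduction
import Fermat.Agent.OrdinaryAtP.Connected
import Fermat.Agent.OrdinaryAtP.Classes
import Fermat.Agent.EichlerShimura.InjectiveProof

set_option autoImplicit false
variable {p : ℕ} {N : ℕ} [NeZero N] {S : Finset ℕ}
  {𝒪 : Type} [CommRing 𝒪] [IsDomain 𝒪] [IsDiscreteValuationRing 𝒪]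
  [IsAdicComplete (IsLocalRing.maximalIdeal 𝒪) 𝒪]
  {θ : CuspForm.heckeAlgebra N 2 (↑S : Set ℕ) →+* IsLocalRing.ResidueField 𝒪}
  {T : Type} [CommRing T] [IsLocalRing T] [IsNoetherianRing T]
  [IsAdicComplete (IsLocalRing.maximalIdeal T) T] [Algebra 𝒪 T] [IsLocalHom (algebraMap 𝒪 T)]
  [Module.Finite 𝒪 T] [Module.Free 𝒪 T]
open CuspForm CuspForm.HeckeGaloisRepDatum

namespace Fermat.Agent.S33

theorem result
    [Finite (IsLocalRing.ResidueField 𝒪)] [CharZero 𝒪]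
    (hp : p.Prime) (hp2 : p ≠ 2) (hp𝒪 : (p : 𝒪) ∈ IsLocalRing.maximalIdeal 𝒪) (hN : p ∣ N ∧ ¬ p ^ 2 ∣ N)
    (hNS : ∀ q : ℕ, q.Prime → q ∣ N → q ∈ S)
    (H : CuspForm.HeckeGaloisRepDatum N (↑S : Set ℕ) 𝒪 θ T)
    (hres : (GaloisRepAdic.ofResidualGaloisRep H.ρ.residual).IsOrdinaryAt p) :
    H.ρ.IsOrdinaryAt p := by
  have := Fact.mk hp
  refine OrdinaryAtP.isOrdinaryAt_of_four_mul hp2
    (GaloisReps.congruenceProperty_all EichlerShimura.injectiveOnTorsion_all) ?_ hN hp𝒪 H hres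
  intro A M inst hA h4 hpM
  have : NeZero M := ⟨fun h => inst.out (by rw [h, mul_zero])⟩
  have hp3 : 3 ≤ p := by have := hp.two_le; omega
  exact OrdinaryAtP.noTrivialQuotient_of_flat (hpM := hpM) hA h4
    fun J hflat hstab π hπ =>
      OrdinaryAtP.eq_zero_of_invariant_of_flat hA hp3 h4 J hflat hstab π hπ

end Fermat.Agent.S33
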