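-- Statement S40: `WeierstrassCurve.isResiduallyModularOfLevel_div_of_isGoodPrimeFor`;
-- `result` has the frozen type of `Fermat/Statements/S40.lean`.
import Fermat.Statements.S40
import Fermat.Agent.RT.Lift.LowerPGen.Main

set_option autoImplicit false
open WeierstrassCurve

namespace Fermat.Agent.S40

theorem result
    (W : WeierstrassCurve ℤ) (hΔ : W.Δ ≠ 0)
    {p : ℕ} (hp : p.Prime) (hp2 : p ≠ 2)
    (hgood : W.IsGoodPrimeFor p)
    (hirr : W.ModRepIsIrreducible p)
    {M : ℕ} (hM : 0 < M) (hpM : p ∣ M) (hp2M : ¬ p ^ 2 ∣ M)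
    (hmod : W.IsResiduallyModularOfLevel p M) :
    W.IsResiduallyModularOfLevel p (M / p) :=
  Fermat.Agent.RT.Lift.LowerPGen.lower_good_of_remaining hp hp2 hgood hirr hM hpM hp2M
    (fun N _ _ h => Fermat.Agent.RT.Lift.LowerPGen.remainingInputs p N hp2 h) hmod

end Fermat.Agent.S40
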