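-- Statement S51: `WeierstrassCurve.modThreeOrFiveIrreducible`;
-- `result` has the frozen type of `Fermat/Statements/S51.lean`.
import Fermat.Statements.S51
import Fermat.Agent.Arith.Places
import Fermat.Agent.EC.Torsion.Galois
import Fermat.Agent.Mazur.Fifteen.Semistable
import Fermat.Agent.Mazur.Fifteen.Three
import Fermat.Agent.Mazur.Fifteen.Five
import Fermat.Agent.Mazur.Fifteen.Line

set_option autoImplicit false
open WeierstrassCurve WeierstrassCurve.Affine WeierstrassCurve.Affine.Point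
open CuspForm ModularFormClass UpperHalfPlane
open WeierstrassCurve

namespace Fermat.Agent.S51

theorem result (W : WeierstrassCurve ℤ) (hΔ : W.Δ ≠ 0) (hW : W.IsSemistableModel) : W.ModRepIsIrreducible 3 ∨ W.ModRepIsIrreducible 5 := by
  classical
  set E : WeierstrassCurve ℚ := W.map (Int.castRingHom ℚ) with hE
  have hΔE : E.Δ ≠ 0 := by
    rw [hE, WeierstrassCurve.map_Δ, eq_intCast]; exact_mod_cast hΔ
  have : E.IsElliptic := ⟨isUnit_iff_ne_zero.2 hΔE⟩
  have := Fermat.Agent.Arith.qBar_isGalois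
  by_contra hcon
  rw [not_or] at hcon
  obtain ⟨P, hP0, hP3, hP⟩ := Fermat.Agent.Mazur.Fifteen.exists_stable_point
    (K := AlgebraicClosure ℚ) E 3 (by norm_num)
    (Fermat.Agent.EC.Torsion.natCard_torsionBy_algebraicClosureRat E (n := 3) (by norm_num)) hcon.1
  obtain ⟨Q, hQ0, hQ5, hQ⟩ := Fermat.Agent.Mazur.Fifteen.exists_stable_point
    (K := AlgebraicClosure ℚ) E 5 (by norm_num)
    (Fermat.Agent.EC.Torsion.natCard_torsionBy_algebraicClosureRat E (n := 5) (by norm_num)) hcon.2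
  have hP' : ∀ σ : AlgebraicClosure ℚ ≃ₐ[ℚ] AlgebraicClosure ℚ, σ • P = P ∨ σ • P = -P := by
    intro σ
    obtain ⟨k, hk, hσ⟩ := hP σ
    interval_cases k
    · rw [zero_nsmul] at hσ
      exact absurd ((smul_eq_zero_iff_eq σ).1 hσ) hP0
    · left; rwa [one_nsmul] at hσ
    · right
      rw [hσ, eq_neg_iff_add_eq_zero, ← hP3]; abel
  obtain ⟨T, hT, h3⟩ :=
    Fermat.Agent.Mazur.Fifteen.exists_hauptmodul_three E hΔE P hP0 hP3 hP'
  obtain ⟨S, hS, h5⟩ :=
    Fermat.Agent.Mazur.Fifteen.exists_hauptmodul_five E hΔE Q hQ0 hQ5 hQ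
  simp only [hE, WeierstrassCurve.map_Δ, WeierstrassCurve.map_c₄, eq_intCast] at h3 h5
  exact Fermat.Agent.Mazur.Fifteen.no_semistable_fifteen W hΔ hW hT hS h3 h5

end Fermat.Agent.S51
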