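-- Statement S50:
-- `WeierstrassCurve.isResiduallyModular_three_and_noInertiaFixedTorsion_and_not_cube_dvd_of_isSemistableModel`;
-- `result` has the frozen type of `Fermat/Statements/S50.lean`.
import Fermat.Statements.S50
import Fermat.Agent.Two.General.Statements
import Fermat.Agent.Two.General.Family
import Fermat.Agent.Two.General.Five

set_option autoImplicit false
set_option autoImplicit false
open WeierstrassCurve WeierstrassCurve.Affine WeierstrassCurve.Affine.Point
open scoped WeierstrassCurve.Affine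
open WeierstrassCurve

namespace Fermat.Agent.S50

theorem result
    (W : WeierstrassCurve ℤ) (hΔ : W.Δ ≠ 0) (hW : W.IsSemistableModel)
    (h3 : W.ModRepIsIrreducible 3) :
    ∃ M : ℕ, 0 < M ∧ W.IsResiduallyModularOfLevel 3 M ∧
      (∀ q : ℕ, q.Prime → q ≠ 3 → ¬ q ^ 3 ∣ M) ∧
      (3 ^ 2 ∣ M →
        ∀ A : ValuationSubring (AlgebraicClosure ℚ), A.LiesOverPrime 3 →
          ∀ x : Submodule.torsionBy ℤ
              ((W.map (Int.castRingHom ℚ))⁄(AlgebraicClosure ℚ)).Point (3 : ℕ),
            (∀ σ ∈ A.inertiaSubgroupIn ℚ, σ • x = x) → x = 0) := by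
  obtain ⟨M, hM, hsq, hmod⟩ := Fermat.Agent.Two.General.residuallyModular_three
    Fermat.Agent.Two.General.goodFamilyInput Fermat.Agent.Two.General.fiveMemberInput W hΔ hW h3
  refine ⟨M, hM, hmod, fun q hq _ h => ?_, fun h => ?_⟩
  · exact hq.not_isUnit (hsq q ((dvd_of_eq (sq q).symm).trans ((pow_dvd_pow q (by norm_num)).trans h)))
  · exact absurd (hsq 3 ((dvd_of_eq (sq 3).symm).trans h)) (by norm_num [Nat.isUnit_iff])

end Fermat.Agent.S50
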