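-- Statement S60: `WeierstrassCurve.modularity_of_semistableModel`;
-- `result` has the frozen type of `Fermat/Statements/S60.lean`.
import Fermat.Statements.S60
import Fermat.Agent.Two.General.Statements
import Fermat.Agent.Two.General.Family
import Fermat.Agent.Two.General.Five

set_option autoImplicit false
open WeierstrassCurve WeierstrassCurve.Affine WeierstrassCurve.Affine.Point
open CuspForm ModularFormClass UpperHalfPlane
open WeierstrassCurve

namespace Fermat.Agent.S60

theorem result (W : WeierstrassCurve ℤ) (hΔ : W.Δ ≠ 0) (hW : W.IsSemistableModel) : (W.map (Int.castRingHom ℚ)).IsModular := by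
  exact Fermat.Agent.Two.General.isModular_of_semistable Fermat.Agent.Two.General.goodFamilyInput Fermat.Agent.Two.General.fiveMemberInput W hΔ hW

end Fermat.Agent.S60
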